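import Fermat.Agent.H53.S14T.Interfaces

/-!
# P-S14, block T, row T-F: `KummerDatumStatement` from the Galois-side statements
-/

set_option autoImplicit false
set_option linter.style.haveILetI false

open scoped NumberField nonZeroDivisors

namespace Fermat.Agent.H78.S14T

/-- An algebra automorphism of `ℚ̄` fixing `ι ζ` fixes `ι x` for every `x ∈ K = ℚ(ζ)`. -/
theorem fixes_range' (p : ℕ) [NeZero p] (K : Type) [Field K] [NumberField K]
    [IsCyclotomicExtension {p} ℚ K] (ι : K →ₐ[ℚ] AlgebraicClosure ℚ) (ζ : K)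
    (hζ : IsPrimitiveRoot ζ p) (τ : AlgebraicClosure ℚ ≃ₐ[ℚ] AlgebraicClosure ℚ)
    (hτ : τ (ι ζ) = ι ζ) (x : K) : τ (ι x) = ι x := by
  have h : (τ : AlgebraicClosure ℚ →ₐ[ℚ] AlgebraicClosure ℚ).comp ι = ι := by
    have hadj : Algebra.adjoin ℚ {ζ} = ⊤ :=
      IsCyclotomicExtension.adjoin_primitive_root_eq_top hζ
    refine AlgHom.ext_of_adjoin_eq_top hadj ?_
    intro a ha
    rw [Set.mem_singleton_iff] at ha
    subst ha
    simpa using hτ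
  exact congrArg (fun f : K →ₐ[ℚ] AlgebraicClosure ℚ => f x) h

/-- **T-F**: final assembly of block T. -/
theorem kummerDatum_of_galoisKummer (hG : Fermat.Agent.H53.GaloisKummerStatement)
    (hG4 : Fermat.Agent.H53.FixedFieldStatement) (hG5 : Fermat.Agent.H53.LiftAutStatement)
    (hS : Fermat.Agent.H53.SingularStatement) :
    Fermat.Agent.H13.KummerDatumStatement := by
  intro p _ h3 V _ _ _ _ C hadm hns K _ _ _ ι ζ hζ
  have hp : p.Prime := Fact.out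
  haveI : NeZero p := ⟨hp.ne_zero⟩
  have hz : IsPrimitiveRoot (ι ζ) p := hζ.map_of_injective ι.injective
  obtain ⟨A₀, hA₀ne, hK2, ⟨τ₀, hτ₀z, hτ₀A⟩, hK4, hK5, hK6⟩ := hG p h3 V C hadm hns (ι ζ) hz
  obtain ⟨α, hα⟩ := hG4 p K ι ζ hζ (A₀ ^ p) hK2
  have hα0 : α ≠ 0 := by
    rintro rfl
    rw [map_zero] at hα
    exact hA₀ne (pow_eq_zero_iff hp.ne_zero |>.mp hα.symm)
  refine ⟨α, A₀, hα0, hα.symm, ?_, ?_, ?_, ?_⟩
  · -- `α` is not a `p`-th power in `K`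
    rintro ⟨β, hβ⟩
    have hβ0 : ι β ≠ 0 := by
      rw [Ne, map_eq_zero]
      rintro rfl
      rw [zero_pow hp.ne_zero] at hβ
      exact hα0 hβ.symm
    have h1 : (A₀ / ι β) ^ p = 1 := by
      rw [div_pow, ← hα, ← hβ, map_pow, div_self (pow_ne_zero _ hβ0)]
    obtain ⟨i, -, hi⟩ := hz.eq_pow_of_pow_eq_one h1
    have hA₀' : A₀ = (ι ζ) ^ i * ι β := by
      rw [hi, div_mul_cancel₀ _ hβ0]
    apply hτ₀A
    have hτ₀β : τ₀ (ι β) = ι β := fixes_range' p K ι ζ hζ τ₀ hτ₀z β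
    rw [hA₀', map_mul, map_pow, hτ₀z, hτ₀β]
  · -- singular
    exact hS p h3 K ι ζ hζ α A₀ hα0 hα.symm hK5 hK6
  · -- `ω²`-eigenspace
    intro σK k hσk
    obtain ⟨σ, hσ⟩ := hG5 K ι σK
    have hσz : σ (ι ζ) = (ι ζ) ^ k := by
      rw [hσ ζ, hσk, map_pow]
    obtain ⟨κ, hκ⟩ := hG4 p K ι ζ hζ _ (hK4 σ k hσz)
    refine ⟨κ, ι.injective ?_⟩
    have hA₀k : A₀ ^ (k ^ 2) ≠ 0 := pow_ne_zero _ hA₀ne
    calc ι (σK α) = σ (ι α) := (hσ α).symm
      _ = (σ A₀) ^ p := by rw [hα, map_pow]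
      _ = (ι κ * A₀ ^ (k ^ 2)) ^ p := by rw [hκ, div_mul_cancel₀ _ hA₀k]
      _ = ι (α ^ (k ^ 2) * κ ^ p) := by
          rw [mul_pow, ← pow_mul, mul_comm (k ^ 2) p, pow_mul, ← hα, map_mul, map_pow, map_pow]
          ring
  · -- fixed by `D_A ∩ G_K` for `A` over `p`
    exact hK6

end Fermat.Agent.H78.S14T
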